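import Fermat.Agent.TW.Euler.Base.Dual.Coind

/-!
# (DUAL): `theorem dualOut : DualOut`, i.e. `X_θ ≅ (X_ψ)^∨(1)` with `θ = ψ⁻¹ · ω̄`

Inflate `Dual.coindDualIso` (for `G = GQ ⧸ N`, `ω = omegaBar N hζ`) along `GQ → GQ ⧸ N`; the
inflation of the `ω̄`-twisted dual is the `cycloChar p`-twisted dual of the inflation, on the nose.
-/

set_option autoImplicit false

open CategoryTheory Module ExtCitation
open Fermat.Agent.CFT Fermat.Agent.S55

namespace Fermat.Agent.TW.Euler.Dual

local notation "Qb" => AlgebraicClosure ℚ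
local notation "GQ" => (AlgebraicClosure ℚ ≃ₐ[ℚ] AlgebraicClosure ℚ)

variable {p : ℕ} [Fact p.Prime]

/-- Inflation commutes with `dualTwist`. -/
noncomputable def inflDualTwistEquiv (N : Subgroup GQ) [N.Normal]
    (hζ : ∀ g ∈ N, ∀ ζ : Qb, ζ ^ p = 1 → g ζ = ζ)
    {V : Type} [AddCommGroup V] [Module (ZMod p) V]
    (ρ : Representation (ZMod p) (GQ ⧸ N) V) :
    Representation.Equiv
      (((ρ.dual.twist (omegaBar N hζ)).comp (QuotientGroup.mk' N) :
        Representation (ZMod p) GQ (Module.Dual (ZMod p) V)))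
      (Representation.twist (Representation.dual
        ((ρ.comp (QuotientGroup.mk' N) : Representation (ZMod p) GQ V))) (cycloChar p)) :=
  Representation.Equiv.mk (LinearEquiv.refl (ZMod p) (Module.Dual (ZMod p) V)) (by
    intro g
    apply LinearMap.ext
    intro f
    apply LinearMap.ext
    intro v
    rfl)

end Fermat.Agent.TW.Euler.Dual

namespace Fermat.Agent.TW.Euler

local notation "GQ" => (AlgebraicClosure ℚ ≃ₐ[ℚ] AlgebraicClosure ℚ)

/-- **(DUAL)** `X_θ ≅ (X_ψ)^∨(1)`. -/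
theorem dualOut : DualOut := by
  intro p _ hp2 N _ _ hζ D k' _ _ _ ψ
  have : Finite (GQ ⧸ N) := Subgroup.finite_quotient_of_finiteIndex
  have : D.FiniteIndex := inferInstance
  exact ⟨(Rep.resFunctor (QuotientGroup.mk' N)).mapIso
      (Dual.coindDualIso D (omegaBar N hζ) ψ) ≪≫
    Rep.mkIso (Dual.inflDualTwistEquiv N hζ (baseRep (p := p) N D ψ))⟩

end Fermat.Agent.TW.Euler
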