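import Fermat.Agent.TW.Euler.Base.Dual.Trace

/-!
# (DUAL), step 2: `Coind_D^G k'(ψ⁻¹ω) ≅ (Coind_D^G k'(ψ))^∨(ω)` for `D ≤ G` of finite index

The chain is
`Coind k'(ψ⁻¹ω) ≅ Coind Hom(k'(ψ), Res 𝔽_p(ω)) ≅ Hom(Coind k'(ψ), 𝔽_p(ω)) ≅ (Coind k'(ψ))^∨(ω)`:
the trace form (`chiEquiv`), `CFT.coindHomHom` (an isomorphism for finite index), and the
identification of `Hom(A, 𝔽_p(ω))` with the twisted dual (`ihomCharEquiv`).
-/

set_option autoImplicit false

open CategoryTheory Module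

namespace Fermat.Agent.TW.Euler.Dual

variable {p : ℕ} [Fact p.Prime]
variable {G : Type} [Group G] (D : Subgroup G) {k' : Type} [Field k'] [Algebra (ZMod p) k']
  [Finite k']

/-- The trace form is an isomorphism of `D`-representations `k'(ψ⁻¹ω) ≅ Hom(k'(ψ), 𝔽_p(ω))`. -/
noncomputable def chiEquiv (ω : G →* (ZMod p)ˣ) (ψ : D →* k'ˣ) :
    (chiRep (p := p) (thetaChar D ω ψ)).Equiv
      (Representation.linHom (chiRep (p := p) ψ) ((charRep ω).comp D.subtype)) :=
  Representation.Equiv.mk (traceEquiv (p := p)) (by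
    intro d
    apply LinearMap.ext
    intro y
    apply LinearMap.ext
    intro x
    simp only [LinearMap.coe_comp, LinearEquiv.coe_coe, Function.comp_apply, chiRep_apply,
      Representation.linHom_apply, traceEquiv_apply, thetaChar_apply, MonoidHom.coe_comp,
      Subgroup.coe_subtype, charRep_apply, map_inv]
    rw [← smul_eq_mul (a := ((ω d.1 : (ZMod p)ˣ) : ZMod p)), ← map_smul, Algebra.smul_def]
    congr 1
    have : ((ψ d : k'ˣ) : k') ≠ 0 := Units.ne_zero _
    simp only [Units.val_inv_eq_inv_val]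
    ring)

/-- `Hom(A, 𝔽_p(ω)) ≅ A^∨(ω)`. -/
noncomputable def ihomCharEquiv {V : Type} [AddCommGroup V] [Module (ZMod p) V]
    (ρ : Representation (ZMod p) G V) (ω : G →* (ZMod p)ˣ) :
    (Representation.linHom ρ (charRep ω)).Equiv (ρ.dual.twist ω) :=
  Representation.Equiv.mk (LinearEquiv.refl (ZMod p) (V →ₗ[ZMod p] ZMod p)) (by
    intro g
    apply LinearMap.ext
    intro f
    apply LinearMap.ext
    intro v
    simp [Representation.twist_apply_apply, Module.Dual.transpose_apply])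

variable [D.FiniteIndex]

/-- `Coind_D^G k'(ψ⁻¹ω) ≅ (Coind_D^G k'(ψ))^∨(ω)`. -/
noncomputable def coindDualIso (ω : G →* (ZMod p)ˣ) (ψ : D →* k'ˣ) :
    Rep.of (Representation.coind D.subtype (chiRep (p := p) (thetaChar D ω ψ))) ≅
      (Rep.of (Representation.coind D.subtype (chiRep (p := p) ψ))).dualTwist ω :=
  (Rep.coindFunctor (ZMod p) D.subtype).mapIso (Rep.mkIso (chiEquiv D ω ψ)) ≪≫
  @asIso _ _ _ _ (Fermat.Agent.CFT.coindHomHom D (Rep.of (chiRep (p := p) ψ)) (Rep.of (charRep ω)))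
    (Fermat.Agent.CFT.isIso_coindHomHom D _ _) ≪≫
  Rep.mkIso (ihomCharEquiv (Representation.coind D.subtype (chiRep (p := p) ψ)) ω)

end Fermat.Agent.TW.Euler.Dual
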