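import Fermat.Agent.TW.Euler.Base.Contracts
import Fermat.Agent.CFT.CoindMaps

/-!
# (DUAL), step 1: the trace form identifies `k'(ψ⁻¹ω)` with `Hom(k'(ψ), 𝔽_p(ω))`
-/

set_option autoImplicit false

open CategoryTheory Module

namespace Fermat.Agent.TW.Euler.Dual

variable {p : ℕ} [Fact p.Prime]

/-- The one-dimensional representation of `G` over `𝔽_p` with character `ω`. -/
def charRep {G : Type} [Group G] (ω : G →* (ZMod p)ˣ) : Representation (ZMod p) G (ZMod p) :=
  (Representation.trivial (ZMod p) G (ZMod p)).twist ω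

@[simp] lemma charRep_apply {G : Type} [Group G] (ω : G →* (ZMod p)ˣ) (g : G) (x : ZMod p) :
    charRep ω g x = (ω g : ZMod p) * x := by
  simp [charRep, Representation.twist_apply_apply]

variable {G : Type} [Group G] (D : Subgroup G) {k' : Type} [Field k'] [Algebra (ZMod p) k']

/-- `θ = ψ⁻¹ · ω` for a character `ψ` of `D ≤ G` and `ω : G →* 𝔽_pˣ`. -/
def thetaChar (ω : G →* (ZMod p)ˣ) (ψ : D →* k'ˣ) : D →* k'ˣ :=
  ψ⁻¹ * (Units.map (algebraMap (ZMod p) k' : ZMod p →* k')).comp (ω.comp D.subtype)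

lemma thetaChar_apply (ω : G →* (ZMod p)ˣ) (ψ : D →* k'ˣ) (d : D) :
    ((thetaChar D ω ψ d : k'ˣ) : k') =
      ((ψ d)⁻¹ : k'ˣ) * algebraMap (ZMod p) k' (ω d.1 : ZMod p) := by
  simp [thetaChar]

variable [Finite k']

/-- The trace form `k' ≃ Hom_{𝔽_p}(k', 𝔽_p)`. -/
noncomputable def traceEquiv : k' ≃ₗ[ZMod p] (k' →ₗ[ZMod p] ZMod p) :=
  (Algebra.traceForm (ZMod p) k').toDual (traceForm_nondegenerate (ZMod p) k')

lemma traceEquiv_apply (y x : k') :
    traceEquiv (p := p) y x = Algebra.trace (ZMod p) k' (y * x) := by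
  unfold traceEquiv
  rw [LinearMap.BilinForm.toDual_def, Algebra.traceForm_apply]

end Fermat.Agent.TW.Euler.Dual
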